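/-
S16 / (U)-P (helper40): p-integrality of the level one Eisenstein series `E_{p-1}` and the
congruence `E_{p-1} ≡ 1 (mod p)` (von Staudt–Clausen), stated with the subring
`ZLoc p = ℤ_(p) ⊆ ℂ`.
-/
import Mathlib

set_option autoImplicit false

namespace Fermat.Agent.S16.EllP40

open scoped MatrixGroups
open ModularForm UpperHalfPlane

/-- `ℤ_(p)` as a subring of `ℚ`: rationals with denominator prime to `p`. -/
def ZLocQ (p : ℕ) [Fact p.Prime] : Subring ℚ := (Rat.padicValuation p).integer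

/-- `ℤ_(p)` as a subring of `ℂ`. -/
noncomputable def ZLoc (p : ℕ) [Fact p.Prime] : Subring ℂ := (ZLocQ p).map (algebraMap ℚ ℂ)

variable {p : ℕ} [Fact p.Prime]

lemma mem_ZLocQ_iff {r : ℚ} : r ∈ ZLocQ p ↔ Rat.padicValuation p r ≤ 1 := Iff.rfl

lemma mem_ZLocQ_iff_den {r : ℚ} : r ∈ ZLocQ p ↔ ¬ p ∣ r.den := by
  rw [mem_ZLocQ_iff, Rat.padicValuation_le_one_iff]

lemma mem_ZLoc_iff {x : ℂ} : x ∈ ZLoc p ↔ ∃ r : ℚ, ¬ p ∣ r.den ∧ (r : ℂ) = x := by
  simp only [ZLoc, Subring.mem_map, mem_ZLocQ_iff_den]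
  rfl

lemma ratCast_mem_ZLoc {r : ℚ} (hr : r ∈ ZLocQ p) : (r : ℂ) ∈ ZLoc p :=
  Subring.mem_map.mpr ⟨r, hr, rfl⟩

lemma intCast_mem_ZLocQ (n : ℤ) : (n : ℚ) ∈ ZLocQ p := intCast_mem (ZLocQ p) n

lemma natCast_mem_ZLocQ (n : ℕ) : (n : ℚ) ∈ ZLocQ p := natCast_mem (ZLocQ p) n

/-- `1/p ∉ ℤ_(p)`: the prime `p` is not a unit. -/
lemma inv_prime_notMem_ZLoc : ((p : ℂ))⁻¹ ∉ ZLoc p := by
  intro h
  obtain ⟨r, hr, hrx⟩ := mem_ZLoc_iff.mp h
  have hp0 : (p : ℚ) ≠ 0 := by exact_mod_cast (Fact.out : p.Prime).ne_zero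
  have : r = (p : ℚ)⁻¹ := by
    have : (r : ℂ) = (((p : ℚ)⁻¹ : ℚ) : ℂ) := by rw [hrx]; push_cast; rfl
    exact_mod_cast this
  apply hr
  rw [this]
  simp [(Fact.out : p.Prime).ne_zero]

/-- If `q ≠ p` is a prime, then `1/q ∈ ℤ_(p)`. -/
lemma one_div_prime_mem_ZLocQ {q : ℕ} (hq : q.Prime) (hqp : q ≠ p) : (1 : ℚ) / q ∈ ZLocQ p := by
  rw [mem_ZLocQ_iff_den]
  have : ((1 : ℚ) / q).den = q := by simp [hq.ne_zero]
  rw [this]
  intro h
  exact hqp ((Nat.prime_dvd_prime_iff_eq (Fact.out : p.Prime) hq).mp h).symm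

/-- von Staudt–Clausen at the prime `p`: `B_{p-1} + 1/p ∈ ℤ_(p)` (for `p` odd). -/
lemma bernoulli_add_inv_mem (hp2 : p ≠ 2) : bernoulli (p - 1) + (1 : ℚ) / p ∈ ZLocQ p := by
  have hpp : p.Prime := Fact.out
  obtain ⟨j, hj⟩ : ∃ j, p - 1 = 2 * j := by
    have := hpp.eq_two_or_odd'
    rcases this with h | h
    · exact absurd h hp2
    · obtain ⟨m, hm⟩ := h
      exact ⟨m, by omega⟩
  obtain ⟨N, hN⟩ := Bernoulli.vonStaudt_clausen j
  rw [hj]
  set S := (Finset.range (2 * j + 2)).filter (fun q => q.Prime ∧ (q - 1) ∣ 2 * j) with hS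
  have hpS : p ∈ S := by
    rw [hS, Finset.mem_filter, Finset.mem_range]
    refine ⟨by omega, hpp, by rw [← hj]⟩
  rw [← Finset.add_sum_erase S _ hpS] at hN
  have hrest : ∑ q ∈ S.erase p, (1 : ℚ) / q ∈ ZLocQ p := by
    refine Subring.sum_mem _ fun q hq => ?_
    rw [Finset.mem_erase, hS, Finset.mem_filter] at hq
    exact one_div_prime_mem_ZLocQ hq.2.2.1 hq.1
  have : bernoulli (2 * j) + (1 : ℚ) / p = (N : ℚ) - ∑ q ∈ S.erase p, (1 : ℚ) / q := by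
    rw [hN]; ring
  rw [this]
  exact Subring.sub_mem _ (intCast_mem_ZLocQ N) hrest

/-- The valuation of `B_{p-1}` is that of `1/p`. -/
lemma padicValuation_bernoulli (hp2 : p ≠ 2) :
    Rat.padicValuation p (bernoulli (p - 1)) = Rat.padicValuation p ((1 : ℚ) / p) := by
  have h1 := bernoulli_add_inv_mem (p := p) hp2
  rw [mem_ZLocQ_iff] at h1
  have hv : Rat.padicValuation p ((1 : ℚ) / p) = WithZero.exp (1 : ℤ) := by
    rw [one_div, map_inv₀, Rat.padicValuation_self, ← WithZero.exp_neg, neg_neg]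
  have hlt : Rat.padicValuation p (bernoulli (p - 1) + (1 : ℚ) / p)
      < Rat.padicValuation p ((1 : ℚ) / p) := by
    rw [hv]
    refine lt_of_le_of_lt h1 ?_
    rw [← WithZero.exp_zero, WithZero.exp_lt_exp]
    norm_num
  have : bernoulli (p - 1) = (bernoulli (p - 1) + (1 : ℚ) / p) - (1 : ℚ) / p := by ring
  rw [this, Valuation.map_sub_eq_of_lt_right _ hlt]

/-- The Eisenstein coefficient `2k/B_k`, `k = p - 1`, is divisible by `p` in `ℤ_(p)`. -/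
lemma two_mul_div_bernoulli_mem (hp2 : p ≠ 2) :
    (2 * ((p - 1 : ℕ) : ℚ) / bernoulli (p - 1)) / p ∈ ZLocQ p := by
  rw [mem_ZLocQ_iff, map_div₀, map_div₀, padicValuation_bernoulli hp2, one_div, map_inv₀,
    div_inv_eq_mul, mul_div_assoc, div_self, mul_one]
  · have h2 : (2 * ((p - 1 : ℕ) : ℚ)) = ((2 * (p - 1 : ℕ) : ℕ) : ℚ) := by push_cast; ring
    rw [h2]
    exact natCast_mem_ZLocQ (p := p) _
  · simp

section Eisenstein

open EisensteinSeries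

variable (hp5 : 5 ≤ p)

omit [Fact p.Prime] in
include hp5 in
lemma three_le_pred : 3 ≤ p - 1 := by omega

include hp5 in
lemma even_pred : Even (p - 1) := by
  have hpp : p.Prime := Fact.out
  rcases hpp.eq_two_or_odd' with h | h
  · omega
  · obtain ⟨m, hm⟩ := h
    exact ⟨m, by omega⟩

/-- The Eisenstein series `E_{p-1}`. -/
noncomputable def Ep : ModularForm 𝒮ℒ ((p - 1 : ℕ) : ℤ) := E (three_le_pred hp5)

lemma Ep_coeff_zero : (qExpansion 1 (Ep hp5)).coeff 0 = 1 :=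
  E_qExpansion_coeff_zero (three_le_pred hp5) (even_pred hp5)

/-- For `m ≥ 1` the `m`-th coefficient of `E_{p-1}` lies in `p ℤ_(p)`. -/
lemma Ep_coeff_pos {m : ℕ} (hm : m ≠ 0) :
    ∃ x ∈ ZLoc p, (qExpansion 1 (Ep hp5)).coeff m = (p : ℂ) * x := by
  have hp2 : p ≠ 2 := by omega
  have hp0 : (p : ℂ) ≠ 0 := by exact_mod_cast (Fact.out : p.Prime).ne_zero
  rw [Ep, E_qExpansion_coeff (three_le_pred hp5) (even_pred hp5) m, if_neg hm]
  set r : ℚ := (2 * ((p - 1 : ℕ) : ℚ) / bernoulli (p - 1)) / p with hr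
  have hrm : r ∈ ZLocQ p := two_mul_div_bernoulli_mem hp2
  refine ⟨((-(r * (ArithmeticFunction.sigma (p - 1 - 1) m : ℚ)) : ℚ) : ℂ),
    ratCast_mem_ZLoc (Subring.neg_mem _ (Subring.mul_mem _ hrm (natCast_mem_ZLocQ _))), ?_⟩
  rw [hr]
  push_cast
  field_simp

lemma Ep_coeff_mem (m : ℕ) : (qExpansion 1 (Ep hp5)).coeff m ∈ ZLoc p := by
  rcases eq_or_ne m 0 with rfl | hm
  · rw [Ep_coeff_zero]; exact Subring.one_mem _
  · obtain ⟨x, hx, hxe⟩ := Ep_coeff_pos hp5 hm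
    rw [hxe]
    exact Subring.mul_mem _ (natCast_mem _ p) hx

end Eisenstein

end Fermat.Agent.S16.EllP40
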