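/-
S16 / (U)-P (helper40): level raising `f(z) ↦ f(N z)` from level one to `Γ₀(N)`, restriction of
level one forms to `Γ₀(N)`, and their `q`-expansions.
-/
import Mathlib
import Fermat.Prelude.Def_ModularForm_HeckeOperator
import Fermat.Agent.S23.DeltaN

set_option autoImplicit false

namespace Fermat.Agent.S16.EllP40

open UpperHalfPlane ModularForm MatrixGroups CongruenceSubgroup
open scoped ModularForm

noncomputable section

variable {k : ℤ}

/-- Restriction of a modular form to a smaller group. -/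
def ofLE {Γ Γ' : Subgroup (GL (Fin 2) ℝ)} (h : Γ' ≤ Γ) (f : ModularForm Γ k) :
    ModularForm Γ' k where
  toFun := f
  slash_action_eq' γ hγ := f.slash_action_eq' γ (h hγ)
  holo' := f.holo'
  bdd_at_cusps' hc := f.bdd_at_cusps' (hc.mono h)

@[simp] lemma ofLE_apply {Γ Γ' : Subgroup (GL (Fin 2) ℝ)} (h : Γ' ≤ Γ) (f : ModularForm Γ k)
    (τ : ℍ) : ofLE h f τ = f τ := rfl

@[simp] lemma coe_ofLE {Γ Γ' : Subgroup (GL (Fin 2) ℝ)} (h : Γ' ≤ Γ) (f : ModularForm Γ k) :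
    (ofLE h f : ℍ → ℂ) = f := rfl

lemma Gamma0_le_SL (N : ℕ) : (Gamma0 N : Subgroup (GL (Fin 2) ℝ)) ≤ 𝒮ℒ := by
  intro γ hγ
  obtain ⟨h, -, rfl⟩ := Subgroup.mem_map.mp hγ
  exact ⟨h, rfl⟩

variable (N : ℕ) [NeZero N]

/-- A level one form viewed as a form on `Γ₀(N)`. -/
def restr (f : ModularForm 𝒮ℒ k) : ModularForm (Gamma0 N) k := ofLE (Gamma0_le_SL N) f

omit [NeZero N] in
@[simp] lemma restr_apply (f : ModularForm 𝒮ℒ k) (τ : ℍ) : restr N f τ = f τ := rfl

omit [NeZero N] in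
@[simp] lemma coe_restr (f : ModularForm 𝒮ℒ k) : (restr N f : ℍ → ℂ) = f := rfl

/-- The form `z ↦ f (N z)` on `Γ₀(N)`. -/
def raise (f : ModularForm 𝒮ℒ k) : ModularForm (Gamma0 N) k :=
  ((N : ℂ) ^ (k - 1))⁻¹ •
    ofLE (Fermat.Agent.S23.Gamma0_le_conj (NeZero.ne N)) (translate f (heckeDiagMatrix N))

lemma raise_apply (f : ModularForm 𝒮ℒ k) (τ : ℍ) :
    raise N f τ = f (heckeDiagMatrix N • τ) := by
  have hN : (N : ℂ) ^ (k - 1) ≠ 0 := zpow_ne_zero _ (by exact_mod_cast NeZero.ne N)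
  change ((N : ℂ) ^ (k - 1))⁻¹ • ((f : ℍ → ℂ) ∣[k] heckeDiagMatrix N) τ = _
  rw [slash_heckeDiagMatrix_apply k (NeZero.ne N), smul_eq_mul, inv_mul_cancel_left₀ hN]

lemma coe_heckeDiag_smul (τ : ℍ) : ((heckeDiagMatrix N • τ : ℍ) : ℂ) = (N : ℂ) * τ :=
  coe_heckeDiagMatrix_smul (NeZero.ne N) τ

lemma qParam_heckeDiag_smul (τ : ℍ) :
    Function.Periodic.qParam 1 (heckeDiagMatrix N • τ : ℍ) = Function.Periodic.qParam 1 τ ^ N := by
  rw [coe_heckeDiag_smul, Function.Periodic.qParam, Function.Periodic.qParam, ← Complex.exp_nat_mul]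
  congr 1
  push_cast
  ring

/-- The `q`-expansion of `f (N z)`. -/
lemma raise_qExpansion_coeff (f : ModularForm 𝒮ℒ k) (n : ℕ) :
    (qExpansion 1 (raise N f)).coeff n =
      if N ∣ n then (qExpansion 1 f).coeff (n / N) else 0 := by
  set c : ℕ → ℂ := fun n => if N ∣ n then (qExpansion 1 f).coeff (n / N) else 0 with hc
  have hN0 : N ≠ 0 := NeZero.ne N
  have hper : (1 : ℝ) ∈ (Gamma0 N : Subgroup (GL (Fin 2) ℝ)).strictPeriods := by
    rw [strictPeriods_Gamma0]; exact AddSubgroup.mem_zmultiples 1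
  suffices h : ∀ τ : ℍ, HasSum (fun m ↦ c m • Function.Periodic.qParam 1 τ ^ m) (raise N f τ) from
    (ModularFormClass.qExpansion_coeff_unique one_pos hper h n).symm
  intro τ
  have h1 := ModularForm.hasSum_qExpansion (h := 1) f one_pos
    (by rw [Subgroup.strictPeriods_SL2Z]; exact AddSubgroup.mem_zmultiples 1) (heckeDiagMatrix N • τ)
  rw [qParam_heckeDiag_smul, ← raise_apply] at h1
  have hinj : Function.Injective (fun m : ℕ => N * m) := fun a b hab =>
    Nat.eq_of_mul_eq_mul_left (Nat.pos_of_ne_zero hN0) hab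
  rw [← hinj.hasSum_iff]
  · convert h1 using 2 with m
    simp only [Function.comp_apply, hc, dvd_mul_right, if_true, Nat.mul_div_cancel_left _
      (Nat.pos_of_ne_zero hN0), pow_mul, smul_eq_mul]
  · intro x hx
    have : ¬ N ∣ x := fun ⟨m, hm⟩ => hx ⟨m, hm.symm⟩
    simp [hc, this]

omit [NeZero N] in
lemma restr_qExpansion (f : ModularForm 𝒮ℒ k) :
    qExpansion 1 (restr N f) = qExpansion 1 f := rfl

end

end Fermat.Agent.S16.EllP40
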