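/-
S16 / (U)-P (helper40): Serre's trace trick.  For `G ∈ M₂(Γ₀(p))` with `G ≡ 1 (mod p)` the level
one form `Tr(G · h)`, `h = E_{p-1}(z) - p^{p-1} E_{p-1}(pz)`, of weight `p + 1` has `p`-integral
`q`-expansion congruent to `1` modulo `p`.
-/
import Fermat.Agent.S16.Conj81.QExp
import Fermat.Agent.S16.EllP40.EisInt
import Fermat.Agent.S16.EllP40.LevelRaise

set_option autoImplicit false

namespace Fermat.Agent.S16.EllP40

open UpperHalfPlane ModularForm MatrixGroups CongruenceSubgroup ModularGroup Function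
open scoped ModularForm Manifold
open Fermat.Agent.S16.Conj81

noncomputable section

variable {p : ℕ} [hp : Fact p.Prime]

/-! ### `p ℤ_(p)` -/

/-- `x ∈ p ℤ_(p)`. -/
def InP (p : ℕ) [Fact p.Prime] (x : ℂ) : Prop := ∃ y ∈ ZLoc p, x = (p : ℂ) * y

lemma InP.zero : InP p 0 := ⟨0, Subring.zero_mem _, by simp⟩

lemma InP.add {x y : ℂ} (hx : InP p x) (hy : InP p y) : InP p (x + y) := by
  obtain ⟨a, ha, rfl⟩ := hx
  obtain ⟨b, hb, rfl⟩ := hy
  exact ⟨a + b, Subring.add_mem _ ha hb, by ring⟩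

lemma InP.neg {x : ℂ} (hx : InP p x) : InP p (-x) := by
  obtain ⟨a, ha, rfl⟩ := hx
  exact ⟨-a, Subring.neg_mem _ ha, by ring⟩

lemma InP.sub {x y : ℂ} (hx : InP p x) (hy : InP p y) : InP p (x - y) := by
  rw [sub_eq_add_neg]; exact hx.add hy.neg

lemma InP.mul_left {x y : ℂ} (hx : x ∈ ZLoc p) (hy : InP p y) : InP p (x * y) := by
  obtain ⟨b, hb, rfl⟩ := hy
  exact ⟨x * b, Subring.mul_mem _ hx hb, by ring⟩

lemma InP.mul_right {x y : ℂ} (hx : InP p x) (hy : y ∈ ZLoc p) : InP p (x * y) := by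
  rw [mul_comm]; exact hx.mul_left hy

lemma InP.mem {x : ℂ} (hx : InP p x) : x ∈ ZLoc p := by
  obtain ⟨a, ha, rfl⟩ := hx
  exact Subring.mul_mem _ (natCast_mem _ p) ha

lemma InP.sum {ι : Type*} (s : Finset ι) (f : ι → ℂ) (h : ∀ i ∈ s, InP p (f i)) :
    InP p (∑ i ∈ s, f i) := by
  classical
  induction s using Finset.induction_on with
  | empty => simpa using InP.zero
  | insert a s ha ih =>
    rw [Finset.sum_insert ha]
    exact (h a (Finset.mem_insert_self a s)).add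
      (ih fun i hi => h i (Finset.mem_insert_of_mem hi))

lemma InP.natCast_mul (x : ℂ) (hx : x ∈ ZLoc p) : InP p ((p : ℂ) * x) := ⟨x, hx, rfl⟩

lemma InP.self : InP p (p : ℂ) := ⟨1, Subring.one_mem _, by ring⟩

/-- all coefficients in `ℤ_(p)` -/
def IntPS (p : ℕ) [Fact p.Prime] (φ : PowerSeries ℂ) : Prop := ∀ n, φ.coeff n ∈ ZLoc p

/-- all coefficients in `p ℤ_(p)` -/
def DivPS (p : ℕ) [Fact p.Prime] (φ : PowerSeries ℂ) : Prop := ∀ n, InP p (φ.coeff n)

lemma DivPS.intPS {φ : PowerSeries ℂ} (h : DivPS p φ) : IntPS p φ := fun n => (h n).mem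

lemma IntPS.mul {φ ψ : PowerSeries ℂ} (h1 : IntPS p φ) (h2 : IntPS p ψ) : IntPS p (φ * ψ) := by
  intro n
  rw [PowerSeries.coeff_mul]
  exact Subring.sum_mem _ fun x _ => Subring.mul_mem _ (h1 _) (h2 _)

lemma IntPS.mul_div {φ ψ : PowerSeries ℂ} (h1 : IntPS p φ) (h2 : DivPS p ψ) :
    DivPS p (φ * ψ) := by
  intro n
  rw [PowerSeries.coeff_mul]
  exact InP.sum _ _ fun x _ => (h2 _).mul_left (h1 _)

lemma DivPS.mul_int {φ ψ : PowerSeries ℂ} (h1 : DivPS p φ) (h2 : IntPS p ψ) :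
    DivPS p (φ * ψ) := by
  rw [mul_comm]; exact h2.mul_div h1

lemma DivPS.add {φ ψ : PowerSeries ℂ} (h1 : DivPS p φ) (h2 : DivPS p ψ) : DivPS p (φ + ψ) := by
  intro n; rw [map_add]; exact (h1 n).add (h2 n)

lemma DivPS.sub {φ ψ : PowerSeries ℂ} (h1 : DivPS p φ) (h2 : DivPS p ψ) : DivPS p (φ - ψ) := by
  intro n; rw [map_sub]; exact (h1 n).sub (h2 n)

lemma IntPS.add {φ ψ : PowerSeries ℂ} (h1 : IntPS p φ) (h2 : IntPS p ψ) : IntPS p (φ + ψ) := by
  intro n; rw [map_add]; exact Subring.add_mem _ (h1 n) (h2 n)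

lemma IntPS.sub {φ ψ : PowerSeries ℂ} (h1 : IntPS p φ) (h2 : IntPS p ψ) : IntPS p (φ - ψ) := by
  intro n; rw [map_sub]; exact Subring.sub_mem _ (h1 n) (h2 n)

lemma IntPS.one : IntPS p (1 : PowerSeries ℂ) := by
  intro n
  rw [PowerSeries.coeff_one]
  split_ifs
  · exact Subring.one_mem _
  · exact Subring.zero_mem _

/-- `φ ≡ 1 mod p` and `ψ ≡ 1 mod p` give `φ ψ ≡ 1 mod p`. -/
lemma divPS_mul_sub_one {φ ψ : PowerSeries ℂ} (h1 : DivPS p (φ - 1)) (h2 : DivPS p (ψ - 1)) :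
    DivPS p (φ * ψ - 1) := by
  have hψ : IntPS p ψ := by
    have := (h2.intPS).add (IntPS.one (p := p))
    simpa using this
  have : φ * ψ - 1 = (φ - 1) * ψ + (ψ - 1) := by ring
  rw [this]
  exact (h1.mul_int hψ).add h2

/-! ### The form `h = E_{p-1}(z) - p^{p-1} E_{p-1}(pz)` -/

instance neZero_of_fact : NeZero p := ⟨hp.out.ne_zero⟩

omit hp in
lemma one_mem_strictPeriods_Gamma0' :
    (1 : ℝ) ∈ (Gamma0 p : Subgroup (GL (Fin 2) ℝ)).strictPeriods := by
  rw [strictPeriods_Gamma0]; exact AddSubgroup.mem_zmultiples 1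

variable (hp5 : 5 ≤ p)

/-- Serre's form `h = E_{p-1}(z) - p^{p-1} E_{p-1}(pz)` on `Γ₀(p)`. -/
def hSerre : ModularForm (Gamma0 p) ((p - 1 : ℕ) : ℤ) :=
  restr p (Ep hp5) - ((p : ℂ) ^ (p - 1)) • raise p (Ep hp5)

lemma hSerre_qExpansion :
    qExpansion 1 (hSerre hp5) =
      qExpansion 1 (Ep hp5) - ((p : ℂ) ^ (p - 1)) • qExpansion 1 (raise p (Ep hp5)) := by
  unfold hSerre
  have h1 := ModularForm.qExpansion_sub (h := 1) one_pos (one_mem_strictPeriods_Gamma0' (p := p))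
    (restr p (Ep hp5)) (((p : ℂ) ^ (p - 1)) • raise p (Ep hp5))
  have h2 := ModularForm.qExpansion_smul (h := 1) one_pos (one_mem_strictPeriods_Gamma0' (p := p))
    ((p : ℂ) ^ (p - 1)) (raise p (Ep hp5))
  rw [FunLike.coe_sub, h1, restr_qExpansion, FunLike.coe_smul, h2]

lemma hSerre_coeff (n : ℕ) :
    (qExpansion 1 (hSerre hp5)).coeff n = (qExpansion 1 (Ep hp5)).coeff n -
      (p : ℂ) ^ (p - 1) * (if p ∣ n then (qExpansion 1 (Ep hp5)).coeff (n / p) else 0) := by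
  rw [hSerre_qExpansion, map_sub, PowerSeries.coeff_smul, raise_qExpansion_coeff, smul_eq_mul]

/-- `h ≡ 1 mod p`. -/
lemma hSerre_divPS : DivPS p (qExpansion 1 (hSerre hp5) - 1) := by
  intro n
  have hpow : InP p ((p : ℂ) ^ (p - 1)) := by
    have : (p : ℂ) ^ (p - 1) = (p : ℂ) * (p : ℂ) ^ (p - 2) := by
      rw [← pow_succ']; congr 1; omega
    rw [this]
    exact InP.natCast_mul _ (Subring.pow_mem _ (natCast_mem _ p) _)
  rw [map_sub, hSerre_coeff, PowerSeries.coeff_one]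
  have h2 : InP p ((p : ℂ) ^ (p - 1) *
      (if p ∣ n then (qExpansion 1 (Ep hp5)).coeff (n / p) else 0)) := by
    refine hpow.mul_right ?_
    split_ifs
    · exact Ep_coeff_mem hp5 _
    · exact Subring.zero_mem _
  rcases eq_or_ne n 0 with rfl | hn
  · rw [Ep_coeff_zero, if_pos rfl]
    have : (1 : ℂ) - (p : ℂ) ^ (p - 1) *
        (if p ∣ 0 then (qExpansion 1 (Ep hp5)).coeff (0 / p) else 0) - 1 =
        -((p : ℂ) ^ (p - 1) * (if p ∣ 0 then (qExpansion 1 (Ep hp5)).coeff (0 / p) else 0)) := by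
      ring
    rw [this]
    exact h2.neg
  · rw [if_neg hn, sub_zero]
    exact InP.sub (Ep_coeff_pos hp5 hn) h2

/-! ### The `S`-translate of `h` -/

omit hp in
/-- Level one forms: `f (S • z) = f z * z ^ k`. -/
lemma levelOne_S_smul {k : ℤ} (f : ModularForm 𝒮ℒ k) (z : ℍ) :
    f (S • z) = f z * (z : ℂ) ^ k := by
  have h1 : (f : ℍ → ℂ) ∣[k] S = f := by
    rw [SL_slash]
    exact SlashInvariantFormClass.slash_action_eq f _ ⟨S, rfl⟩
  have h2 := congrFun h1 z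
  rw [SL_slash_apply, ModularGroup.denom_S] at h2
  have hz : (z : ℂ) ≠ 0 := ne_zero z
  rw [← h2, mul_assoc, ← zpow_add₀ hz, neg_add_cancel, zpow_zero, mul_one]

omit hp in
lemma heckeDiag_S_smul (N : ℕ) [NeZero N] (z : ℍ) :
    heckeDiagMatrix N • (S • z) = S • (heckeMatrix N 0 • z) := by
  apply UpperHalfPlane.ext
  rw [coe_heckeDiagMatrix_smul (NeZero.ne N), modular_S_smul, modular_S_smul]
  change (N : ℂ) * (-(z : ℂ))⁻¹ = (-((heckeMatrix N 0 • z : ℍ) : ℂ))⁻¹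
  rw [coe_heckeMatrix_smul (NeZero.ne N)]
  have hN : (N : ℂ) ≠ 0 := by exact_mod_cast NeZero.ne N
  have hz : (z : ℂ) ≠ 0 := ne_zero z
  simp only [Nat.cast_zero, add_zero]
  field_simp

omit hp in
/-- `(f(N·) ∣ S)(z) = N^{-k} f(z/N)`. -/
lemma raise_slash_S (N : ℕ) [NeZero N] {k : ℤ} (f : ModularForm 𝒮ℒ k) (z : ℍ) :
    ((raise N f : ℍ → ℂ) ∣[k] S) z = ((N : ℂ) ^ k)⁻¹ * f (heckeMatrix N 0 • z) := by
  have hN : (N : ℂ) ≠ 0 := by exact_mod_cast NeZero.ne N
  have hz : (z : ℂ) ≠ 0 := ne_zero z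
  rw [SL_slash_apply, ModularGroup.denom_S, raise_apply, heckeDiag_S_smul, levelOne_S_smul,
    coe_heckeMatrix_smul (NeZero.ne N)]
  simp only [Nat.cast_zero, add_zero]
  rw [div_zpow, zpow_neg]
  field_simp

omit hp in
lemma qParam_heckeMatrix_smul (N : ℕ) [NeZero N] (z : ℍ) :
    Periodic.qParam 1 (heckeMatrix N 0 • z : ℍ) = Periodic.qParam (N : ℝ) z := by
  rw [coe_heckeMatrix_smul (NeZero.ne N)]
  unfold Periodic.qParam
  congr 1
  push_cast
  ring

/-- Pointwise formula: `(h ∣ S)(z) = E(z) - E(z/p)`. -/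
lemma Hs_hSerre_apply (z : ℍ) :
    Hs (hSerre hp5) z = Ep hp5 z - Ep hp5 (heckeMatrix p 0 • z) := by
  have hp0 : (p : ℂ) ≠ 0 := by exact_mod_cast hp.out.ne_zero
  have h1 : (hSerre hp5 : ℍ → ℂ) =
      (Ep hp5 : ℍ → ℂ) - ((p : ℂ) ^ (p - 1)) • (raise p (Ep hp5) : ℍ → ℂ) := by
    unfold hSerre
    rw [FunLike.coe_sub, FunLike.coe_smul, coe_restr]
  have h2 : (Ep hp5 : ℍ → ℂ) ∣[((p - 1 : ℕ) : ℤ)] S = Ep hp5 := by
    rw [SL_slash]
    exact SlashInvariantFormClass.slash_action_eq (Ep hp5) _ ⟨S, rfl⟩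
  rw [Hs_def, h1, sub_eq_add_neg, SlashAction.add_slash, SlashAction.neg_slash, SL_smul_slash, h2]
  simp only [Pi.add_apply, Pi.neg_apply, Pi.smul_apply, smul_eq_mul]
  rw [raise_slash_S, zpow_natCast, ← mul_assoc, mul_inv_cancel₀ (pow_ne_zero _ hp0), one_mul,
    ← sub_eq_add_neg]

omit hp in
/-- Re-indexing a `q`-expansion as a `q^(1/N)`-expansion. -/
lemma hasSum_reindex (N : ℕ) (hN : 0 < N) (a : ℕ → ℂ) (x y : ℂ)
    (h : HasSum (fun m : ℕ => a m * (x ^ N) ^ m) y) :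
    HasSum (fun n : ℕ => (if N ∣ n then a (n / N) else 0) * x ^ n) y := by
  have hinj : Function.Injective (fun m : ℕ => N * m) := fun u v huv =>
    Nat.eq_of_mul_eq_mul_left hN huv
  have hz : ∀ n ∉ Set.range (fun m : ℕ => N * m),
      (if N ∣ n then a (n / N) else 0) * x ^ n = 0 := by
    intro n hn
    have : ¬ N ∣ n := fun ⟨m, hm⟩ => hn ⟨m, hm.symm⟩
    rw [if_neg this, zero_mul]
  rw [← hinj.hasSum_iff hz]
  have : ((fun n : ℕ => (if N ∣ n then a (n / N) else 0) * x ^ n) ∘ fun m : ℕ => N * m) =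
      fun m : ℕ => a m * (x ^ N) ^ m := by
    funext m
    simp only [Function.comp_apply]
    rw [if_pos (dvd_mul_right N m), Nat.mul_div_cancel_left _ hN, pow_mul]
  rw [this]
  exact h

/-- the `q^(1/p)`-expansion of `h ∣ S`. -/
lemma hasSum_Hs_hSerre (τ : ℍ) :
    HasSum (fun n : ℕ => ((if p ∣ n then (qExpansion 1 (Ep hp5)).coeff (n / p) else 0) -
        (qExpansion 1 (Ep hp5)).coeff n) * Periodic.qParam (p : ℝ) τ ^ n)
      (Hs (hSerre hp5) τ) := by
  have hper : (1 : ℝ) ∈ (𝒮ℒ : Subgroup (GL (Fin 2) ℝ)).strictPeriods := by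
    rw [Subgroup.strictPeriods_SL2Z]; exact AddSubgroup.mem_zmultiples 1
  rw [Hs_hSerre_apply]
  have h1 := ModularForm.hasSum_qExpansion (h := 1) (Ep hp5) one_pos hper τ
  have h2 := ModularForm.hasSum_qExpansion (h := 1) (Ep hp5) one_pos hper (heckeMatrix p 0 • τ)
  rw [qParam_heckeMatrix_smul] at h2
  have e : Periodic.qParam 1 (τ : ℂ) = Periodic.qParam (p : ℝ) (τ : ℂ) ^ p :=
    (qParam_p_pow (p := p) (τ : ℂ)).symm
  rw [e] at h1
  have h1' := hasSum_reindex p hp.out.pos _ _ _ h1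
  have h3 := h1'.sub h2
  have : (fun n : ℕ => ((if p ∣ n then (qExpansion 1 (Ep hp5)).coeff (n / p) else 0) -
        (qExpansion 1 (Ep hp5)).coeff n) * Periodic.qParam (p : ℝ) τ ^ n) =
      fun n : ℕ => (if p ∣ n then (qExpansion 1 (Ep hp5)).coeff (n / p) else 0) *
        Periodic.qParam (p : ℝ) τ ^ n -
        (qExpansion 1 (Ep hp5)).coeff n * Periodic.qParam (p : ℝ) τ ^ n := by
    funext n
    ring
  rw [this]
  exact h3

omit hp in
/-- uniqueness of `q`-expansion coefficients, for plain functions. -/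
lemma qExpansion_coeff_unique_fun {f : ℍ → ℂ} {c : ℕ → ℂ} {h : ℝ} (hh : 0 < h)
    (hfanalytic : AnalyticAt ℂ (cuspFunction h f) 0)
    (hf : ∀ τ : ℍ, HasSum (fun m ↦ c m • Periodic.qParam h τ ^ m) (f τ)) (m : ℕ) :
    c m = (qExpansion h f).coeff m := by
  have h1 := (hasFPowerSeriesOnBall_cuspFunction hh hfanalytic hf).hasFPowerSeriesAt
  have h2 : HasFPowerSeriesAt (cuspFunction h f)
      (FormalMultilinearSeries.ofScalars ℂ fun m ↦ (qExpansion h f).coeff m) 0 := by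
    simpa [qExpansion_coeff, div_eq_mul_inv, mul_comm] using hfanalytic.hasFPowerSeriesAt
  simpa [FormalMultilinearSeries.coeff_ofScalars] using
    congr_arg (FormalMultilinearSeries.coeff · m) (h1.eq_formalMultilinearSeries h2)

/-- analyticity at the cusp of the `S`-translate, in the parameter `q^(1/p)`. -/
lemma analyticAt_Hs {k : ℤ} (f : ModularForm (Gamma0 p) k) :
    AnalyticAt ℂ (cuspFunction (p : ℝ) (Hs f)) 0 :=
  analyticAt_cuspFunction_zero p_pos_real (Hs_periodic f) (Hs_mdiff f) (Hs_bdd f)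

/-- the `q^(1/p)`-expansion coefficients of `h ∣ S`. -/
lemma bco_hSerre (n : ℕ) :
    bco (hSerre hp5) n =
      (if p ∣ n then (qExpansion 1 (Ep hp5)).coeff (n / p) else 0) -
        (qExpansion 1 (Ep hp5)).coeff n := by
  have h := qExpansion_coeff_unique_fun (p_pos_real (p := p)) (analyticAt_Hs (hSerre hp5))
    (c := fun n => (if p ∣ n then (qExpansion 1 (Ep hp5)).coeff (n / p) else 0) -
        (qExpansion 1 (Ep hp5)).coeff n)
    (fun τ => by simpa only [smul_eq_mul] using hasSum_Hs_hSerre hp5 τ) n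
  exact h.symm

/-- `h ∣ S ≡ 0 mod p` (coefficientwise). -/
lemma bco_hSerre_inP (n : ℕ) : InP p (bco (hSerre hp5) n) := by
  rw [bco_hSerre]
  rcases eq_or_ne n 0 with rfl | hn
  · simp only [dvd_zero, if_true, Nat.zero_div, sub_self]
    exact InP.zero
  · refine InP.sub ?_ (Ep_coeff_pos hp5 hn)
    split_ifs with hd
    · have : n / p ≠ 0 := by
        obtain ⟨m, rfl⟩ := hd
        rw [Nat.mul_div_cancel_left _ hp.out.pos]
        rintro rfl
        exact hn (by simp)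
      exact Ep_coeff_pos hp5 this
    · exact InP.zero

/-! ### The trace of `G h` -/

/-- `f ↦ f ∣ S` is multiplicative. -/
lemma Hs_mul {k1 k2 : ℤ} (f : ModularForm (Gamma0 p) k1) (g : ModularForm (Gamma0 p) k2) :
    Hs (f.mul g) = Hs f * Hs g := by
  rw [Hs_def, Hs_def, Hs_def]
  exact mul_slash_SL2 k1 k2 S f g

lemma bco_mul {k1 k2 : ℤ} (f : ModularForm (Gamma0 p) k1) (g : ModularForm (Gamma0 p) k2)
    (n : ℕ) :
    bco (f.mul g) n = ∑ x ∈ Finset.HasAntidiagonal.antidiagonal n, bco f x.1 * bco g x.2 := by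
  unfold bco
  rw [Hs_mul, UpperHalfPlane.qExpansion_mul (analyticAt_Hs f) (analyticAt_Hs g),
    PowerSeries.coeff_mul]

/-- **Serre's trace trick.** If `G ∈ M₂(Γ₀(p))` is `≡ 1 mod p` and `p · (G ∣ S)` has
`p`-integral `q^(1/p)`-expansion, then `Tr(G h)` is a level one form of weight `2 + (p - 1)`,
`≡ 1 mod p`. -/
theorem trace_mul_hSerre_divPS (G : ModularForm (Gamma0 p) 2)
    (hG : DivPS p (qExpansion 1 G - 1)) (hS : ∀ n, (p : ℂ) * bco G n ∈ ZLoc p) :
    DivPS p (qExpansion 1 (ModularForm.trace 𝒮ℒ (G.mul (hSerre hp5))) - 1) := by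
  intro m
  rw [map_sub, qExpansion_trace_coeff, add_sub_right_comm]
  refine InP.add ?_ ?_
  · have h1 := divPS_mul_sub_one hG (hSerre_divPS hp5) m
    rwa [← ModularForm.qExpansion_mul one_pos (one_mem_strictPeriods_Gamma0' (p := p)), map_sub]
      at h1
  · rw [bco_mul, Finset.mul_sum]
    refine InP.sum _ _ fun x _ => ?_
    rw [← mul_assoc]
    exact InP.mul_left (hS _) (bco_hSerre_inP hp5 _)

include hp5 in
/-- The level one form of weight `p + 1`, congruent to `1` modulo `p`, produced from a weight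
two form `G ≡ 1 mod p` of level `Γ₀(p)`. -/
theorem exists_levelOne (G : ModularForm (Gamma0 p) 2)
    (hG : DivPS p (qExpansion 1 G - 1)) (hS : ∀ n, (p : ℂ) * bco G n ∈ ZLoc p) :
    ∃ F : ModularForm 𝒮ℒ ((p + 1 : ℕ) : ℤ), DivPS p (qExpansion 1 F - 1) := by
  have hw : (2 : ℤ) + ((p - 1 : ℕ) : ℤ) = ((p + 1 : ℕ) : ℤ) := by
    have : 1 ≤ p := hp.out.one_le
    push_cast [Nat.cast_sub this]
    ring
  refine ⟨ModularForm.mcast hw (ModularForm.trace 𝒮ℒ (G.mul (hSerre hp5))), ?_⟩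
  rw [ModularForm.qExpansion_mcast]
  exact trace_mul_hSerre_divPS hp5 G hG hS

include hp5 in
/-- Variant: the hypothesis on `G ∣ S` in the form of the weight two trace identity
`b_n(G ∣ S) = - a_{pn}(G) / p`. -/
theorem exists_levelOne' (G : ModularForm (Gamma0 p) 2)
    (hG : DivPS p (qExpansion 1 G - 1))
    (hC4 : ∀ n, bco G n = -(qExpansion 1 G).coeff (p * n) / p) :
    ∃ F : ModularForm 𝒮ℒ ((p + 1 : ℕ) : ℤ), DivPS p (qExpansion 1 F - 1) := by
  refine exists_levelOne hp5 G hG fun n => ?_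
  have hp0 : (p : ℂ) ≠ 0 := by exact_mod_cast hp.out.ne_zero
  have hGi : IntPS p (qExpansion 1 G) := by
    have := (hG.intPS).add (IntPS.one (p := p))
    simpa using this
  rw [hC4, mul_div_cancel₀ _ hp0]
  exact Subring.neg_mem _ (hGi _)

end

end Fermat.Agent.S16.EllP40
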