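/-
S16 / (U)-P (helper40): the `l = p` case of the upper bound, `UIface39.UpStmt`.

Serre's trace trick (`SerreTrace.exists_levelOne'`) + the weight two trace identity (C4)
(`ConjBridge9.bco_weight_two_div`) produce a level one form of weight `p + 1` congruent to `1`
modulo `p`; together with `E_{p-1} ≡ 1 mod p` this contradicts
`ModPBridge21.false_of_two_weights_smul`.
-/
import Fermat.Agent.S16.EllP40.SerreTrace
import Fermat.Agent.S16.ConjBridge9
import Fermat.Agent.S16.ModPBridge21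
import Fermat.Agent.S16.UAsm39
import Fermat.Agent.S16.Eis17.Iface39

set_option autoImplicit false

namespace Fermat.Agent.S16.EllP40

open UpperHalfPlane ModularForm MatrixGroups CongruenceSubgroup ModularFormClass
open scoped ModularForm
open Fermat.Agent.S16.UIface39

noncomputable section

variable {p : ℕ} [hp : Fact p.Prime]

/-- `1/6 ∈ ℤ_(p)` for `p ≥ 5`. -/
lemma inv_six_mem_ZLoc (hp5 : 5 ≤ p) : ((6 : ℂ))⁻¹ ∈ ZLoc p := by
  rw [mem_ZLoc_iff]
  refine ⟨(1 / 6 : ℚ), ?_, by push_cast; ring⟩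
  have hden : (1 / 6 : ℚ).den = 6 := by norm_num
  rw [hden]
  intro h
  have hle := Nat.le_of_dvd (by norm_num) h
  have hpp := hp.out
  interval_cases p
  · exact absurd h (by norm_num)
  · exact absurd hpp (by norm_num)

/-- A quotient `m / d` with `p ∤ d` lies in `ℤ_(p)`. -/
lemma intCast_div_natCast_mem_ZLoc (m : ℤ) {d : ℕ} (hd : ¬ p ∣ d) :
    ((m : ℂ) / (d : ℂ)) ∈ ZLoc p := by
  rw [mem_ZLoc_iff]
  refine ⟨(m : ℚ) / (d : ℚ), ?_, by push_cast; ring⟩
  intro h
  apply hd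
  have hd0 : d ≠ 0 := fun h0 => hd (h0 ▸ dvd_zero p)
  have h1 : ((m : ℚ) / (d : ℚ)).den ∣ d := by
    have := Rat.den_dvd m d
    rw [Rat.divInt_eq_div] at this
    exact_mod_cast this
  exact dvd_trans h h1

/-- `InPow p 1 x` means `x ∈ p ℤ_(p)`. -/
lemma inP_of_inPow {x : ℂ} (h : InPow p 1 x) : InP p x := by
  obtain ⟨m, d, hd, hx⟩ := h
  have hd0 : (d : ℂ) ≠ 0 := by
    have : d ≠ 0 := fun h0 => hd (h0 ▸ dvd_zero p)
    exact_mod_cast this
  refine ⟨(m : ℂ) / (d : ℂ), intCast_div_natCast_mem_ZLoc m hd, ?_⟩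
  rw [pow_one] at hx
  field_simp
  linear_combination hx

/-- **(U)-P**: no weight two form on `Γ₀(p)`, `p ≥ 5`, is `≡ 1 mod p`. -/
theorem noCong_self (hp5 : 5 ≤ p) : NoCong p p 1 := by
  intro G hG0 hGk
  -- `G ≡ 1 mod p`
  have hG : DivPS p (qExpansion 1 G - 1) := by
    intro n
    rcases Nat.eq_zero_or_pos n with rfl | hn
    · have h0 : (qExpansion 1 G).coeff 0 = 1 := hG0
      rw [map_sub, h0, PowerSeries.coeff_one, if_pos rfl, sub_self]
      exact InP.zero
    · have hk : InP p ((qExpansion 1 G).coeff n) := inP_of_inPow (hGk n hn)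
      rw [map_sub, PowerSeries.coeff_one, if_neg (Nat.pos_iff_ne_zero.mp hn), sub_zero]
      exact hk
  obtain ⟨F1, hF1⟩ := exists_levelOne' hp5 G hG (ConjBridge9.bco_weight_two_div G)
  have hk : (((p + 1 : ℕ) : ℤ)) = ((p - 1 : ℕ) : ℤ) + 2 := by
    have : 1 ≤ p := hp.out.one_le
    push_cast [Nat.cast_sub this]
    ring
  refine ModPBridge21.false_of_two_weights_smul hp.out hp5 (ZLoc p) (inv_six_mem_ZLoc hp5)
    inv_prime_notMem_ZLoc hk F1 (Ep hp5) ?_ ?_ ?_ ?_
  · obtain ⟨y, hy, hy'⟩ := hF1 0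
    rw [map_sub, PowerSeries.coeff_one, if_pos rfl] at hy'
    exact ⟨y, hy, by linear_combination hy'⟩
  · intro n hn
    obtain ⟨y, hy, hy'⟩ := hF1 n
    rw [map_sub, PowerSeries.coeff_one, if_neg (by omega), sub_zero] at hy'
    exact ⟨y, hy, hy'⟩
  · exact ⟨0, Subring.zero_mem _, by rw [Ep_coeff_zero]; ring⟩
  · intro n hn
    exact Ep_coeff_pos hp5 (by omega)

omit hp in
/-- **(U3)**, the `l = p` case of the S16 upper bound, in the shape of `UIface39.UpStmt`. -/
theorem upStmt : UpStmt := by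
  intro p hp hp5 f _ hfk
  have : Fact p.Prime := ⟨hp⟩
  obtain ⟨G, hG0, hGk⟩ := UAsm39.exists_G Eis17.eisStmt hp f p hfk
  refine noCong_self hp5 G hG0 fun k hk => ?_
  obtain ⟨c, hc⟩ := hGk k hk
  -- `a_k(G) (p - 1) = -24 p c`
  refine ⟨-24 * c, p - 1, ?_, ?_⟩
  · intro h
    have h1 : p ≤ p - 1 := Nat.le_of_dvd (by omega) h
    omega
  · have h1 : ((p - 1 : ℕ) : ℂ) = (p : ℂ) - 1 := by
      rw [Nat.cast_sub hp.one_le, Nat.cast_one]
    rw [h1, hc, pow_one]
    push_cast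
    ring

end

end Fermat.Agent.S16.EllP40
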